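import Mathlib
import Fermat.Agent.S56.H66.VG0
import Fermat.Agent.S54.FrobExists

/-!
# S59 / cell GTW (helper245): uniqueness of the open subgroup of index `2` of `G_ℚ` containing
all inertia groups at the primes `ℓ ≠ p`

`index_two_unique` : for an odd prime `p`, two subgroups of index `2` of `Gal(ℚ̄/ℚ)`, both
containing the fixing subgroup of a finite extension and all inertia groups at all primes
`ℓ ≠ p`, are equal (both are the stabiliser of `√p*`).
-/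

set_option autoImplicit false
set_option linter.style.haveILetI false
set_option linter.unusedSectionVars false
set_option linter.unusedVariables false

namespace Fermat.Agent.S59.H245

local notation "Qb" => AlgebraicClosure ℚ
local notation "GQ" => (AlgebraicClosure ℚ ≃ₐ[ℚ] AlgebraicClosure ℚ)

/-- The subgroup contains the fixing subgroup of a finite extension of `ℚ`. -/
def IsOpenSub (G : Subgroup GQ) : Prop :=
  ∃ L : IntermediateField ℚ Qb, FiniteDimensional ℚ L ∧ ∀ σ : GQ, (∀ x ∈ L, σ x = x) → σ ∈ G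

/-- The subgroup contains all inertia groups at the primes `ℓ ≠ p`. -/
def ContainsInertiaAway (p : ℕ) (G : Subgroup GQ) : Prop :=
  ∀ ℓ : ℕ, ℓ.Prime → ℓ ≠ p → ∀ A : ValuationSubring Qb, A.LiesOverPrime ℓ →
    ∀ σ ∈ A.inertiaSubgroupIn ℚ, σ ∈ G

theorem exists_fixed_not_rat (G : Subgroup GQ) (hG : G ≠ ⊤) (hopen : IsOpenSub G) :
    ∃ x : Qb, (∀ σ ∈ G, σ x = x) ∧ x ∉ Set.range (algebraMap ℚ Qb) := by
  obtain ⟨L, hL, hLG⟩ := hopen
  have hle : L.fixingSubgroup ≤ G := by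
    intro σ hσ
    refine hLG σ (fun x hx => ?_)
    rw [IntermediateField.mem_fixingSubgroup_iff] at hσ
    exact hσ x hx
  have hopen : IsOpen (G : Set GQ) :=
    Subgroup.isOpen_mono hle (IntermediateField.fixingSubgroup_isOpen L)
  have hclosed : IsClosed (G : Set GQ) := Subgroup.isClosed_of_isOpen G hopen
  haveI : IsGalois ℚ Qb := Fermat.Agent.S54.isGalois_algebraicClosure_rat
  by_contra hcon
  push Not at hcon
  apply hG
  have h1 := InfiniteGalois.fixingSubgroup_fixedField (k := ℚ) (K := Qb) ⟨G, hclosed⟩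
  have h2 : IntermediateField.fixedField G = ⊥ := by
    apply le_antisymm
    · intro x hx
      rw [IntermediateField.mem_fixedField_iff] at hx
      exact IntermediateField.mem_bot.mpr (hcon x hx)
    · exact bot_le
  have h3 : (IntermediateField.fixedField G).fixingSubgroup = G := h1
  rw [h2, IntermediateField.fixingSubgroup_bot] at h3
  exact h3.symm


/-! ### An element `u` with `u² ∈ ℤ` cutting out `G` -/

/-- `u` cuts out `G`: it is nonzero, fixed by `G` and negated by the complement of `G`, and its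
square is the integer `d`. -/
structure Cuts (G : Subgroup GQ) (u : Qb) (d : ℤ) : Prop where
  ne_zero : u ≠ 0
  sq : u ^ 2 = (d : Qb)
  fix : ∀ σ ∈ G, σ u = u
  neg : ∀ σ : GQ, σ ∉ G → σ u = -u

theorem Cuts.mem_iff {G : Subgroup GQ} {u : Qb} {d : ℤ} (h : Cuts G u d) (σ : GQ) :
    σ ∈ G ↔ σ u = u := by
  refine ⟨h.fix σ, fun hσ => ?_⟩
  by_contra hcon
  have h1 := h.neg σ hcon
  rw [hσ] at h1
  have h2 : (2 : Qb) * u = 0 := by linear_combination h1
  rcases mul_eq_zero.mp h2 with h3 | h3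
  · exact two_ne_zero h3
  · exact h.ne_zero h3

theorem Cuts.d_ne_zero {G : Subgroup GQ} {u : Qb} {d : ℤ} (h : Cuts G u d) : d ≠ 0 := by
  rintro rfl
  have := h.sq
  rw [Int.cast_zero] at this
  exact h.ne_zero (pow_eq_zero_iff (two_ne_zero) |>.mp this)

theorem exists_cuts (G : Subgroup GQ) (hG : G.index = 2) (hopen : IsOpenSub G) :
    ∃ (u : Qb) (d : ℤ), Cuts G u d := by
  haveI : IsGalois ℚ Qb := Fermat.Agent.S54.isGalois_algebraicClosure_rat
  have hGtop : G ≠ ⊤ := by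
    intro h
    rw [h, Subgroup.index_top] at hG
    omega
  obtain ⟨x, hx, hxQ⟩ := exists_fixed_not_rat G hGtop hopen
  obtain ⟨τ, hτ⟩ : ∃ τ : GQ, τ ∉ G := by
    by_contra hcon
    push Not at hcon
    exact hGtop (Subgroup.eq_top_iff' G |>.mpr hcon)
  have hmul : ∀ a b : GQ, a * b ∈ G ↔ (a ∈ G ↔ b ∈ G) :=
    fun a b => Subgroup.mul_mem_iff_of_index_two hG
  have hinv : ∀ a : GQ, a⁻¹ ∈ G ↔ a ∈ G := fun a => Subgroup.inv_mem_iff G
  -- elements outside `G` act on `x` as `τ`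
  have hout : ∀ σ : GQ, σ ∉ G → σ x = τ x := by
    intro σ hσ
    have h1 : τ⁻¹ * σ ∈ G := by
      rw [hmul, hinv]
      exact ⟨fun h => absurd h hτ, fun h => absurd h hσ⟩
    have h2 := hx _ h1
    rw [AlgEquiv.mul_apply] at h2
    have h3 := congrArg τ h2
    rw [← AlgEquiv.mul_apply, mul_inv_cancel, AlgEquiv.one_apply] at h3
    exact h3
  have hout2 : ∀ σ : GQ, σ ∉ G → σ (τ x) = x := by
    intro σ hσ
    have h1 : σ * τ ∈ G := by
      rw [hmul]
      exact ⟨fun h => absurd h hσ, fun h => absurd h hτ⟩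
    have h2 := hx _ h1
    rwa [AlgEquiv.mul_apply] at h2
  have hin2 : ∀ σ ∈ G, σ (τ x) = τ x := by
    intro σ hσ
    have h1 : σ * τ ∉ G := by
      rw [hmul]
      intro h
      exact hτ (h.mp hσ)
    have h2 := hout _ h1
    rwa [AlgEquiv.mul_apply] at h2
  set u₀ : Qb := x - τ x with hu₀
  have hu₀ne : u₀ ≠ 0 := by
    intro h0
    have hτx : τ x = x := (sub_eq_zero.mp h0).symm
    apply hxQ
    rw [InfiniteGalois.mem_range_algebraMap_iff_fixed]
    intro σ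
    by_cases hσ : σ ∈ G
    · exact hx σ hσ
    · rw [hout σ hσ, hτx]
  have hfix : ∀ σ ∈ G, σ u₀ = u₀ := by
    intro σ hσ
    rw [hu₀, map_sub, hx σ hσ, hin2 σ hσ]
  have hneg : ∀ σ : GQ, σ ∉ G → σ u₀ = -u₀ := by
    intro σ hσ
    rw [hu₀, map_sub, hout σ hσ, hout2 σ hσ]
    ring
  have hsq : u₀ ^ 2 ∈ Set.range (algebraMap ℚ Qb) := by
    rw [InfiniteGalois.mem_range_algebraMap_iff_fixed]
    intro σ
    rw [map_pow]
    by_cases hσ : σ ∈ G
    · rw [hfix σ hσ]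
    · rw [hneg σ hσ, neg_sq]
  obtain ⟨r, hr⟩ := hsq
  refine ⟨(r.den : Qb) * u₀, r.num * r.den, ?_, ?_, ?_, ?_⟩
  · exact mul_ne_zero (by exact_mod_cast r.den_ne_zero) hu₀ne
  · rw [mul_pow, ← hr]
    have h1 : (algebraMap ℚ Qb) r = (r.num : Qb) / (r.den : Qb) := by
      conv_lhs => rw [← Rat.num_div_den r]
      rw [map_div₀, map_intCast, map_natCast]
    rw [h1]
    have hden : (r.den : Qb) ≠ 0 := by exact_mod_cast r.den_ne_zero
    push_cast
    field_simp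
  · intro σ hσ
    rw [map_mul, map_natCast, hfix σ hσ]
  · intro σ hσ
    rw [map_mul, map_natCast, hneg σ hσ]
    ring


/-! ### Valuations of integers -/

section Val

variable (A : ValuationSubring Qb)

theorem val_int_le_one (n : ℤ) : A.valuation (n : Qb) ≤ 1 :=
  (A.valuation_le_one_iff _).mpr (intCast_mem A n)

theorem val_int_eq_one {ℓ : ℕ} (hℓ : ℓ.Prime) (hA : A.LiesOverPrime ℓ) {n : ℤ}
    (hn : ¬ (ℓ : ℤ) ∣ n) : A.valuation (n : Qb) = 1 := by
  refine le_antisymm (val_int_le_one A n) ?_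
  by_contra hlt
  rw [not_le] at hlt
  have hcop : IsCoprime (ℓ : ℤ) n :=
    (Prime.coprime_iff_not_dvd (Nat.prime_iff_prime_int.mp hℓ)).mpr hn
  obtain ⟨a, b, hab⟩ := hcop
  have hℓv : A.valuation (ℓ : Qb) < 1 := (A.mem_nonunits_iff).mp hA
  have h1 : ((a : Qb) * (ℓ : Qb) + (b : Qb) * (n : Qb)) = 1 := by exact_mod_cast hab
  have h2 : A.valuation ((a : Qb) * (ℓ : Qb) + (b : Qb) * (n : Qb)) < 1 := by
    refine lt_of_le_of_lt (A.valuation.map_add _ _) (max_lt ?_ ?_)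
    · rw [map_mul]
      calc A.valuation (a : Qb) * A.valuation (ℓ : Qb) ≤ 1 * A.valuation (ℓ : Qb) :=
            mul_le_mul_left (val_int_le_one A a) _
        _ < 1 := by rwa [one_mul]
    · rw [map_mul]
      calc A.valuation (b : Qb) * A.valuation (n : Qb) ≤ 1 * A.valuation (n : Qb) :=
            mul_le_mul_left (val_int_le_one A b) _
        _ < 1 := by rwa [one_mul]
  rw [h1, map_one] at h2
  exact lt_irrefl _ h2

theorem val_prime_ne_zero {ℓ : ℕ} (hℓ : ℓ.Prime) : A.valuation (ℓ : Qb) ≠ 0 := by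
  rw [Valuation.ne_zero_iff]
  exact_mod_cast hℓ.ne_zero

theorem val_prime_zpow_injective {ℓ : ℕ} (hℓ : ℓ.Prime) (hA : A.LiesOverPrime ℓ) {m n : ℤ}
    (h : A.valuation (ℓ : Qb) ^ m = A.valuation (ℓ : Qb) ^ n) : m = n := by
  have hℓv : A.valuation (ℓ : Qb) < 1 := (A.mem_nonunits_iff).mp hA
  have h0 : 0 < A.valuation (ℓ : Qb) := zero_lt_iff.mpr (val_prime_ne_zero A hℓ)
  exact zpow_right_injective₀ h0 hℓv.ne h

end Val


/-! ### Ramification of `ℚ(√d)` -/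

theorem Cuts.inertia_fix {G : Subgroup GQ} {u : Qb} {d : ℤ} (h : Cuts G u d) {p : ℕ}
    (hI : ContainsInertiaAway p G) {ℓ : ℕ} (hℓ : ℓ.Prime) (hℓp : ℓ ≠ p)
    (A : ValuationSubring Qb) (hA : A.LiesOverPrime ℓ) :
    ∀ σ ∈ A.inertiaSubgroupIn ℚ, σ u = u :=
  fun σ hσ => h.fix σ (hI ℓ hℓ hℓp A hA σ hσ)

/-- A prime `ℓ ≠ p` does not divide `d` exactly once. -/
theorem Cuts.not_dvd {G : Subgroup GQ} {u : Qb} {d : ℤ} (h : Cuts G u d) {p : ℕ}
    (hI : ContainsInertiaAway p G) (hsf : ∀ q : ℕ, q.Prime → ¬ ((q : ℤ) ^ 2 ∣ d))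
    {ℓ : ℕ} (hℓ : ℓ.Prime) (hℓp : ℓ ≠ p) : ¬ (ℓ : ℤ) ∣ d := by
  rintro ⟨d', rfl⟩
  have hd' : ¬ (ℓ : ℤ) ∣ d' := by
    rintro ⟨e, rfl⟩
    exact hsf ℓ hℓ ⟨e, by ring⟩
  obtain ⟨A, hA⟩ := Fermat.Agent.S54.exists_valuationSubring_liesOver ℓ hℓ
  obtain ⟨m, hm⟩ := Fermat.Agent.S56.H66.vg0 ℓ hℓ A hA u h.ne_zero
    (h.inertia_fix hI hℓ hℓp A hA)
  have h1 : A.valuation u ^ 2 = A.valuation (ℓ : Qb) := by
    rw [← map_pow, h.sq]
    push_cast
    rw [map_mul, show ((d' : ℤ) : Qb) = ((d' : ℤ) : Qb) from rfl, val_int_eq_one A hℓ hA hd',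
      mul_one]
  rw [hm, ← zpow_natCast, ← zpow_mul] at h1
  have h2 : A.valuation (ℓ : Qb) ^ (m * ((2 : ℕ) : ℤ)) = A.valuation (ℓ : Qb) ^ (1 : ℤ) := by
    rw [h1, zpow_one]
  have h3 := val_prime_zpow_injective A hℓ hA h2
  push_cast at h3
  omega

theorem exists_cuts_squarefree (G : Subgroup GQ) (hG : G.index = 2) (hopen : IsOpenSub G) :
    ∃ (u : Qb) (d : ℤ), Cuts G u d ∧ ∀ q : ℕ, q.Prime → ¬ ((q : ℤ) ^ 2 ∣ d) := by
  classical
  have hex : ∃ n : ℕ, ∃ (u : Qb) (d : ℤ), Cuts G u d ∧ d.natAbs = n := by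
    obtain ⟨u, d, h⟩ := exists_cuts G hG hopen
    exact ⟨_, u, d, h, rfl⟩
  obtain ⟨u, d, h, hd⟩ := Nat.find_spec hex
  refine ⟨u, d, h, ?_⟩
  rintro q hq ⟨d', hd'⟩
  have hq0 : (q : Qb) ≠ 0 := by exact_mod_cast hq.ne_zero
  have hd'0 : d' ≠ 0 := by
    rintro rfl
    rw [mul_zero] at hd'
    exact h.d_ne_zero hd'
  have hcut : Cuts G (u / (q : Qb)) d' := by
    refine ⟨div_ne_zero h.ne_zero hq0, ?_, ?_, ?_⟩
    · rw [div_pow, h.sq, hd']
      push_cast
      field_simp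
    · intro σ hσ
      rw [map_div₀, map_natCast, h.fix σ hσ]
    · intro σ hσ
      rw [map_div₀, map_natCast, h.neg σ hσ]
      ring
  have hlt : d'.natAbs < Nat.find hex := by
    rw [← hd, hd', Int.natAbs_mul, Int.natAbs_pow, Int.natAbs_natCast]
    have h1 : 0 < d'.natAbs := Int.natAbs_pos.mpr hd'0
    have h2 : 2 ≤ q := hq.two_le
    nlinarith [Nat.pow_le_pow_left h2 2]
  exact Nat.find_min hex hlt ⟨_, d', hcut, rfl⟩

theorem natAbs_eq_one_or_prime {d : ℤ} (hd : d ≠ 0) {p : ℕ} (hp : p.Prime)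
    (hsf : ∀ q : ℕ, q.Prime → ¬ ((q : ℤ) ^ 2 ∣ d))
    (hdiv : ∀ ℓ : ℕ, ℓ.Prime → ℓ ≠ p → ¬ (ℓ : ℤ) ∣ d) : d.natAbs = 1 ∨ d.natAbs = p := by
  by_cases h1 : d.natAbs = 1
  · exact Or.inl h1
  right
  obtain ⟨q, hq, hqd⟩ := Nat.exists_prime_and_dvd h1
  have hqp : q = p := by
    by_contra hne
    exact hdiv q hq hne (Int.natCast_dvd.mpr hqd)
  subst hqp
  obtain ⟨n', hn'⟩ := hqd
  by_cases h2 : n' = 1
  · rw [hn', h2, mul_one]
  exfalso
  obtain ⟨q', hq', hq'd⟩ := Nat.exists_prime_and_dvd h2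
  have hq'p : q' = q := by
    by_contra hne
    exact hdiv q' hq' hne (Int.natCast_dvd.mpr (hn' ▸ Dvd.dvd.mul_left hq'd q))
  subst hq'p
  apply hsf q' hq
  rw [← Int.natCast_pow, Int.natCast_dvd, hn', pow_two]
  exact Nat.mul_dvd_mul_left q' hq'd


/-- The `2`-adic condition: if `G` contains the inertia groups at `2` and `d` is odd, then
`d ≡ 1 mod 4`. -/
theorem Cuts.mod_four {G : Subgroup GQ} {u : Qb} {d : ℤ} (h : Cuts G u d) {p : ℕ}
    (hp2 : p ≠ 2) (hI : ContainsInertiaAway p G) (hodd : ¬ (2 : ℤ) ∣ d) : d % 4 = 1 := by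
  by_contra hcon
  have h3 : d % 4 = 3 := by omega
  obtain ⟨w, hw⟩ : ∃ w : ℤ, 1 - d = 2 * w := ⟨(1 - d) / 2, by omega⟩
  have hwodd : ¬ ((2 : ℕ) : ℤ) ∣ w := by
    rintro ⟨e, he⟩
    push_cast at he
    omega
  have hdodd : ¬ ((2 : ℕ) : ℤ) ∣ d := by simpa using hodd
  obtain ⟨A, hA⟩ := Fermat.Agent.S54.exists_valuationSubring_liesOver 2 Nat.prime_two
  have hfix := h.inertia_fix hI Nat.prime_two (Ne.symm hp2) A hA
  have hv2 : A.valuation ((2 : ℕ) : Qb) < 1 := (A.mem_nonunits_iff).mp hA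
  have hv2' : A.valuation (2 : Qb) < 1 := by simpa using hv2
  have hvu : A.valuation u = 1 := by
    have h1 : A.valuation u ^ 2 = 1 := by
      rw [← map_pow, h.sq, val_int_eq_one A Nat.prime_two hA hdodd]
    exact (pow_eq_one_iff.mp h1).resolve_right two_ne_zero
  have hprod : (1 + u) * (1 - u) = ((2 : ℕ) : Qb) * (w : Qb) := by
    have : (1 + u) * (1 - u) = 1 - u ^ 2 := by ring
    rw [this, h.sq]
    have := congrArg (Int.cast : ℤ → Qb) hw
    push_cast at this ⊢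
    exact this
  have hw0 : (w : Qb) ≠ 0 := by
    intro h0
    have : w = 0 := by exact_mod_cast h0
    subst this
    exact hwodd (dvd_zero _)
  have h20 : ((2 : ℕ) : Qb) ≠ 0 := by norm_num
  have hne : (1 + u) * (1 - u) ≠ 0 := by
    rw [hprod]
    exact mul_ne_zero h20 hw0
  have hp0 : (1 + u) ≠ 0 := left_ne_zero_of_mul hne
  have hm0 : (1 - u) ≠ 0 := right_ne_zero_of_mul hne
  obtain ⟨a, ha⟩ := Fermat.Agent.S56.H66.vg0 2 Nat.prime_two A hA (1 + u) hp0 (fun σ hσ => by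
    rw [map_add, map_one, hfix σ hσ])
  obtain ⟨b, hb⟩ := Fermat.Agent.S56.H66.vg0 2 Nat.prime_two A hA (1 - u) hm0 (fun σ hσ => by
    rw [map_sub, map_one, hfix σ hσ])
  have hab : a + b = 1 := by
    have h1 : A.valuation ((1 + u) * (1 - u)) = A.valuation ((2 : ℕ) : Qb) := by
      rw [hprod, map_mul, val_int_eq_one A Nat.prime_two hA hwodd, mul_one]
    rw [map_mul, ha, hb, ← zpow_add₀ (val_prime_ne_zero A Nat.prime_two)] at h1
    have h2 : A.valuation ((2 : ℕ) : Qb) ^ (a + b) = A.valuation ((2 : ℕ) : Qb) ^ (1 : ℤ) := by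
      rw [h1, zpow_one]
    exact val_prime_zpow_injective A Nat.prime_two hA h2
  have hple : A.valuation (1 + u) ≤ 1 := by
    refine le_trans (A.valuation.map_add _ _) (max_le ?_ hvu.le)
    rw [map_one]
  have hmle : A.valuation (1 - u) ≤ 1 := by
    refine le_trans (A.valuation.map_sub _ _) (max_le ?_ hvu.le)
    rw [map_one]
  have h0 : 0 < A.valuation ((2 : ℕ) : Qb) :=
    zero_lt_iff.mpr (val_prime_ne_zero A Nat.prime_two)
  have hnonneg : ∀ c : ℤ, A.valuation ((2 : ℕ) : Qb) ^ c ≤ 1 → 0 ≤ c := by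
    intro c hc
    by_contra hneg
    rw [not_le] at hneg
    have h1 : 1 < A.valuation ((2 : ℕ) : Qb) ^ c := by
      have h2 : A.valuation ((2 : ℕ) : Qb) ^ c = (A.valuation ((2 : ℕ) : Qb) ^ (-c))⁻¹ := by
        rw [zpow_neg, inv_inv]
      rw [h2]
      have h3 : A.valuation ((2 : ℕ) : Qb) ^ (-c) < 1 := by
        obtain ⟨k, hk⟩ : ∃ k : ℕ, -c = ((k + 1 : ℕ) : ℤ) := ⟨(-c - 1).toNat, by omega⟩
        rw [hk, zpow_natCast]
        exact pow_lt_one₀ h0.le hv2 (Nat.succ_ne_zero k)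
      have h4 : 0 < A.valuation ((2 : ℕ) : Qb) ^ (-c) := zpow_pos h0 _
      exact (one_lt_inv₀ h4).mpr h3
    exact absurd hc (not_le.mpr h1)
  have ha0 : 0 ≤ a := hnonneg a (ha ▸ hple)
  have hb0 : 0 ≤ b := hnonneg b (hb ▸ hmle)
  have hv2u : A.valuation (2 * u) < 1 := by
    rw [map_mul, hvu, mul_one]
    exact hv2'
  rcases (show (a = 0 ∧ b = 1) ∨ (a = 1 ∧ b = 0) by omega) with ⟨ha', hb'⟩ | ⟨ha', hb'⟩
  · -- `v(1 + u) = 1`, `v(1 - u) = v(2)`
    rw [ha', zpow_zero] at ha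
    rw [hb', zpow_one] at hb
    have h1 : (1 + u) = (1 - u) + 2 * u := by ring
    have h2 : A.valuation (1 + u) < 1 := by
      rw [h1]
      refine lt_of_le_of_lt (A.valuation.map_add _ _) (max_lt ?_ hv2u)
      rw [hb]
      exact hv2
    rw [ha] at h2
    exact lt_irrefl _ h2
  · rw [ha', zpow_one] at ha
    rw [hb', zpow_zero] at hb
    have h1 : (1 - u) = (1 + u) - 2 * u := by ring
    have h2 : A.valuation (1 - u) < 1 := by
      rw [h1]
      refine lt_of_le_of_lt (A.valuation.map_sub _ _) (max_lt ?_ hv2u)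
      rw [ha]
      exact hv2
    rw [hb] at h2
    exact lt_irrefl _ h2

/-- `p* = (-1)^((p-1)/2) p`. -/
def pstar (p : ℕ) : ℤ := if p % 4 = 1 then (p : ℤ) else -(p : ℤ)

/-- An open subgroup of index `2` of `G_ℚ` containing all inertia groups at the primes `ℓ ≠ p`
(`p` odd) is the stabiliser of a square root of `p*`. -/
theorem exists_cuts_pstar {p : ℕ} (hp : p.Prime) (hp2 : p ≠ 2) (G : Subgroup GQ)
    (hG : G.index = 2) (hopen : IsOpenSub G) (hI : ContainsInertiaAway p G) :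
    ∃ u : Qb, Cuts G u (pstar p) := by
  obtain ⟨u, d, h, hsf⟩ := exists_cuts_squarefree G hG hopen
  have hdiv : ∀ ℓ : ℕ, ℓ.Prime → ℓ ≠ p → ¬ (ℓ : ℤ) ∣ d := fun ℓ hℓ hℓp => h.not_dvd hI hsf hℓ hℓp
  have hodd : ¬ (2 : ℤ) ∣ d := by
    have := hdiv 2 Nat.prime_two (Ne.symm hp2)
    simpa using this
  have hmod := h.mod_four hp2 hI hodd
  have hpodd : p % 2 = 1 := by
    rcases hp.eq_two_or_odd with h2 | h2
    · exact absurd h2 hp2
    · exact h2
  have hGtop : G ≠ ⊤ := by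
    intro h
    rw [h, Subgroup.index_top] at hG
    omega
  rcases natAbs_eq_one_or_prime h.d_ne_zero hp hsf hdiv with h1 | h1
  · exfalso
    rcases Int.natAbs_eq d with h2 | h2
    · rw [h1] at h2
      -- `d = 1`
      have hu : u ^ 2 = 1 := by
        rw [h.sq, h2]
        norm_num
      apply hGtop
      rw [Subgroup.eq_top_iff']
      intro σ
      rw [h.mem_iff]
      have hu' : u ^ 2 = 1 ^ 2 := by rw [hu, one_pow]
      rcases sq_eq_sq_iff_eq_or_eq_neg.mp hu' with hu1 | hu1 <;> rw [hu1] <;> simp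
    · rw [h1] at h2
      rw [h2] at hmod
      omega
  · have hd : d = pstar p := by
      unfold pstar
      rcases Int.natAbs_eq d with h2 | h2 <;> rw [h1] at h2 <;> split_ifs with h4 <;> omega
    exact ⟨u, hd ▸ h⟩

/-- **UNIQ.**  Two open subgroups of index `2` of `G_ℚ` containing all inertia groups at the
primes `ℓ ≠ p` (`p` an odd prime) are equal. -/
theorem index_two_unique {p : ℕ} (hp : p.Prime) (hp2 : p ≠ 2) (G₁ G₂ : Subgroup GQ)
    (h₁ : G₁.index = 2) (h₂ : G₂.index = 2) (ho₁ : IsOpenSub G₁) (ho₂ : IsOpenSub G₂)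
    (hI₁ : ContainsInertiaAway p G₁) (hI₂ : ContainsInertiaAway p G₂) : G₁ = G₂ := by
  obtain ⟨u₁, hu₁⟩ := exists_cuts_pstar hp hp2 G₁ h₁ ho₁ hI₁
  obtain ⟨u₂, hu₂⟩ := exists_cuts_pstar hp hp2 G₂ h₂ ho₂ hI₂
  have hsq : u₁ ^ 2 = u₂ ^ 2 := by rw [hu₁.sq, hu₂.sq]
  ext σ
  rw [hu₁.mem_iff, hu₂.mem_iff]
  rcases sq_eq_sq_iff_eq_or_eq_neg.mp hsq with h | h
  · rw [h]
  · rw [h, map_neg, neg_inj]

end Fermat.Agent.S59.H245
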